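/-
S25 / AlgSpec.val_unique, node VU1 (pure Mathlib).   Architect: helper183.

CONTENT LEMMA.  `V` a valuation ring, `P` a projective `V`-module, `x : ι → P` a finite family, not
all zero.  Then `x i = b • y i` with `b ≠ 0` and some `y i ∉ 𝔪_V P`.

Proof sketch.  `Module.projective_def'` gives `s : P →ₗ[V] (P →₀ V)` with
`Finsupp.linearCombination V id ∘ₗ s = id`.  The finitely many coordinates `s (x i) p`
(`i : ι`, `p ∈ ⋃ i, (s (x i)).support`) are not all zero; divisibility is a total preorder on a
valuation ring (`ValuationRing.dvd_total`), so one of them, `b = s (x i₀) p₀`, divides all the others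
(`Finset.exists_minimal`-style induction, or induction on the finite set); `b ≠ 0` because it divides
a nonzero one.  Write `s (x i) = b • z i` (`z i : P →₀ V`, `z i₀ p₀ = 1`), put
`y i := Finsupp.linearCombination V id (z i)`.  Then `x i = b • y i`, and `b • s (y i) = b • z i`
gives `s (y i) = z i` (torsion-free).  If `y i₀ ∈ 𝔪 • ⊤` then the linear form `n ↦ s n p₀` sends it
into `𝔪` (`Submodule.smul_induction_on`), but its value is `1`.
-/
import Mathlib

set_option autoImplicit false

namespace Fermat.Agent.S25.ValUnique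

theorem exists_dvd_all {V : Type*} [CommRing V] [IsDomain V] [ValuationRing V]
    {α : Type*} (S : Finset α) (hS : S.Nonempty) (c : α → V) :
    ∃ a ∈ S, ∀ a' ∈ S, c a ∣ c a' := by
  classical
  induction hS using Finset.Nonempty.cons_induction with
  | singleton a => exact ⟨a, Finset.mem_singleton_self a, fun a' ha' => by
      rw [Finset.mem_singleton.mp ha']⟩
  | cons a s ha hs ih =>
    obtain ⟨a₀, ha₀, h⟩ := ih
    rcases ValuationRing.dvd_total (c a) (c a₀) with hd | hd
    · refine ⟨a, Finset.mem_cons_self a s, fun a' ha' => ?_⟩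
      rcases Finset.mem_cons.mp ha' with rfl | ha'
      · exact dvd_rfl
      · exact hd.trans (h a' ha')
    · refine ⟨a₀, Finset.mem_cons_of_mem ha₀, fun a' ha' => ?_⟩
      rcases Finset.mem_cons.mp ha' with rfl | ha'
      · exact hd
      · exact h a' ha'

theorem linearForm_mem_of_mem_smul_top {V : Type*} [CommRing V] {P : Type*} [AddCommGroup P]
    [Module V P] (I : Ideal V) (f : P →ₗ[V] V) {n : P} (hn : n ∈ I • (⊤ : Submodule V P)) :
    f n ∈ I := by
  induction hn using Submodule.smul_induction_on' with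
  | smul r hr m _ => rw [map_smul, smul_eq_mul]; exact I.mul_mem_right _ hr
  | add a _ b _ ha hb => rw [map_add]; exact I.add_mem ha hb

theorem exists_content {V : Type*} [CommRing V] [IsDomain V] [ValuationRing V]
    {P : Type*} [AddCommGroup P] [Module V P] [Module.Projective V P]
    {ι : Type*} [Finite ι] (x : ι → P) (hx : ∃ i, x i ≠ 0) :
    ∃ (b : V) (y : ι → P), b ≠ 0 ∧ (∀ i, x i = b • y i) ∧
      ∃ i, y i ∉ (IsLocalRing.maximalIdeal V) • (⊤ : Submodule V P) := by
  classical
  cases nonempty_fintype ι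
  obtain ⟨s, hs⟩ := (Module.projective_def' (R := V) (P := P)).mp inferInstance
  have hs' : ∀ n : P, Finsupp.linearCombination V id (s n) = n := fun n =>
    LinearMap.congr_fun hs n
  set S : Finset (ι × P) :=
    Finset.univ.biUnion fun i => (s (x i)).support.image fun p => (i, p) with hSdef
  have hmem : ∀ i p, (i, p) ∈ S ↔ s (x i) p ≠ 0 := by
    intro i p
    simp [hSdef]
  have hSne : S.Nonempty := by
    obtain ⟨i, hi⟩ := hx
    have h1 : s (x i) ≠ 0 := by
      intro h0
      apply hi
      rw [← hs' (x i), h0, map_zero]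
    obtain ⟨p, hp⟩ := Finsupp.ne_iff.mp h1
    exact ⟨(i, p), (hmem i p).mpr (by simpa using hp)⟩
  obtain ⟨⟨i₀, p₀⟩, h₀, hdvd⟩ := exists_dvd_all S hSne fun ip => s (x ip.1) ip.2
  set b : V := s (x i₀) p₀ with hb
  have hb0 : b ≠ 0 := (hmem i₀ p₀).mp h₀
  have hdvd' : ∀ i p, b ∣ s (x i) p := by
    intro i p
    by_cases h : s (x i) p = 0
    · rw [h]; exact dvd_zero b
    · exact hdvd (i, p) ((hmem i p).mpr h)
  let d : V → V := fun v => if h : b ∣ v then h.choose else 0
  have hd : ∀ v, b ∣ v → b * d v = v := by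
    intro v hv
    simp only [d, dif_pos hv]
    exact hv.choose_spec.symm
  have hd0 : d 0 = 0 := by
    have := hd 0 (dvd_zero b)
    exact (mul_eq_zero.mp this).resolve_left hb0
  let z : ι → (P →₀ V) := fun i => Finsupp.mapRange d hd0 (s (x i))
  have hz : ∀ i, b • z i = s (x i) := by
    intro i
    ext p
    simp only [z, Finsupp.smul_apply, Finsupp.mapRange_apply, smul_eq_mul]
    exact hd _ (hdvd' i p)
  refine ⟨b, fun i => Finsupp.linearCombination V id (z i), hb0, fun i => ?_, i₀, fun hmem' => ?_⟩
  · rw [← map_smul, hz, hs']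
  · have h1 := linearForm_mem_of_mem_smul_top (IsLocalRing.maximalIdeal V)
      ((Finsupp.lapply p₀).comp s) hmem'
    have h2 : b * ((Finsupp.lapply p₀).comp s) (Finsupp.linearCombination V id (z i₀)) = b * 1 := by
      rw [← smul_eq_mul, ← map_smul, ← map_smul, hz, hs', mul_one]
      rfl
    rw [mul_left_cancel₀ hb0 h2] at h1
    exact (Ideal.ne_top_iff_one _).mp (IsLocalRing.maximalIdeal.isMaximal V).ne_top h1

end Fermat.Agent.S25.ValUnique
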