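/-
S25 / AlgSpec.val_unique, node VU3 (pure Mathlib).   Architect: helper183.

ABSTRACT CHART.  `V` valuation ring with fraction field `K`; `R` a `V`-algebra, `RK` a `K`-algebra,
`j : R →+* RK`;  `N` an `R`-module, `W` an `RK`-module, `β : N →ₛₗ[j] W`.
`IsLattice V K β`: `β` is injective, `V`-semilinear and every `w : W` has a denominator in `V`.
-/
import Mathlib

set_option autoImplicit false

namespace Fermat.Agent.S25.ValUnique

variable (V K : Type*) [CommRing V] [Field K] [Algebra V K]
  {R RK : Type*} [CommRing R] [CommRing RK] {j : R →+* RK}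
  {N N' W : Type*} [AddCommGroup N] [Module R N] [Module V N]
  [AddCommGroup N'] [Module R N'] [Module V N']
  [AddCommGroup W] [Module RK W] [Module K W]

/-- `N` is a `V`-lattice in the `K`-vector space `W`. -/
structure IsLattice (β : N →ₛₗ[j] W) : Prop where
  inj : Function.Injective β
  den : ∀ w : W, ∃ a : V, a ≠ 0 ∧ ∃ n, β n = algebraMap V K a • w
  smul : ∀ (a : V) (n : N), β (a • n) = algebraMap V K a • β n

variable {V K}

/-- If `c • β n` lies in the lattice `N'` for `n` in a generating set, then multiplication by `c` is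
induced by an `R`-linear map `N → N'`.
Proof: `{n | ∃ n', β' n' = c • β n}` is an `R`-submodule (use `smul_comm` for `K`, `RK` on `W`),
so it is `⊤`; choose `φ n`; linearity by injectivity of `β'`. -/
theorem exists_map_of_span [SMulCommClass K RK W] {β : N →ₛₗ[j] W} {β' : N' →ₛₗ[j] W}
    (hinj : Function.Injective β') {c : K} {s : Set N} (hs : Submodule.span R s = ⊤)
    (h : ∀ n ∈ s, ∃ n', β' n' = c • β n) :
    ∃ φ : N →ₗ[R] N', ∀ n, β' (φ n) = c • β n := by
  classical
  let P : Submodule R N :=
    { carrier := {n | ∃ n', β' n' = c • β n}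
      add_mem' := by
        rintro a b ⟨a', ha⟩ ⟨b', hb⟩
        exact ⟨a' + b', by rw [map_add, map_add, smul_add, ha, hb]⟩
      zero_mem' := ⟨0, by simp⟩
      smul_mem' := by
        rintro r a ⟨a', ha⟩
        refine ⟨r • a', ?_⟩
        rw [LinearMap.map_smulₛₗ, LinearMap.map_smulₛₗ, ha, smul_comm c] }
  have hP : P = ⊤ := by
    rw [eq_top_iff, ← hs, Submodule.span_le]
    exact h
  have hall : ∀ n, ∃ n', β' n' = c • β n := fun n => by
    have : n ∈ P := hP ▸ Submodule.mem_top
    exact this
  choose φ hφ using hall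
  refine ⟨{ toFun := φ, map_add' := fun a b => hinj ?_, map_smul' := fun r a => hinj ?_ }, hφ⟩
  · rw [hφ, map_add, map_add, hφ, hφ, smul_add]
  · rw [hφ, RingHom.id_apply, LinearMap.map_smulₛₗ, LinearMap.map_smulₛₗ, hφ, smul_comm c]

/-- Two mutually inverse multiplications give a linear equivalence. -/
theorem exists_equiv_of_maps {β : N →ₛₗ[j] W} {β' : N' →ₛₗ[j] W}
    (hinj : Function.Injective β) (hinj' : Function.Injective β') {c : K} (hc : c ≠ 0)
    (φ : N →ₗ[R] N') (hφ : ∀ n, β' (φ n) = c • β n)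
    (ψ : N' →ₗ[R] N) (hψ : ∀ n, β (ψ n) = c⁻¹ • β' n) :
    ∃ e : N ≃ₗ[R] N', ∀ n, β' (e n) = c • β n := by
  refine ⟨LinearEquiv.ofLinearMap φ ψ ?_ ?_, fun n => hφ n⟩
  · ext n
    apply hinj'
    simp only [LinearMap.comp_apply, LinearMap.id_apply]
    rw [hφ, hψ, smul_smul, mul_inv_cancel₀ hc, one_smul]
  · ext n
    apply hinj
    simp only [LinearMap.comp_apply, LinearMap.id_apply]
    rw [hψ, hφ, smul_smul, inv_mul_cancel₀ hc, one_smul]

/-- Rescaling by a unit of `V`.  (`e' n := (↑u : V) • e n`; it is `R`-linear because of the tower,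
bijective because `u` is a unit.) -/
theorem exists_equiv_rescale [Algebra V R] [IsScalarTower V R N'] {β : N →ₛₗ[j] W}
    {β' : N' →ₛₗ[j] W} (hβ' : IsLattice V K β') {c : K}
    (e : N ≃ₗ[R] N') (he : ∀ n, β' (e n) = c • β n) (u : Vˣ) :
    ∃ e' : N ≃ₗ[R] N', ∀ n, β' (e' n) = (algebraMap V K u * c) • β n := by
  have hsm : ∀ (a : V) (n : N'), a • n = algebraMap V R a • n := fun a n => by
    rw [algebraMap_smul]
  let m : N' ≃ₗ[R] N' :=
    LinearEquiv.ofLinearMap (algebraMap V R (u : V) • LinearMap.id)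
      (algebraMap V R ((u⁻¹ : Vˣ) : V) • LinearMap.id)
      (by
        ext n
        simp only [LinearMap.comp_apply, LinearMap.smul_apply, LinearMap.id_apply, smul_smul]
        rw [← map_mul, Units.mul_inv, map_one, one_smul])
      (by
        ext n
        simp only [LinearMap.comp_apply, LinearMap.smul_apply, LinearMap.id_apply, smul_smul]
        rw [← map_mul, Units.inv_mul, map_one, one_smul])
  refine ⟨e.trans m, fun n => ?_⟩
  have : (e.trans m) n = (u : V) • e n := by
    rw [hsm]; rfl
  rw [this, hβ'.smul, he, smul_smul]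

/-- UNIT LEMMA.  If `w N = N` inside `W` and `N ≠ 𝔪_V N` then `w ∈ Vˣ`.
Proof: `ValuationRing.isInteger_or_isInteger V w`: `w = algebraMap a` or `w⁻¹ = algebraMap a`.
If `a` is a unit we are done.  Otherwise `a ∈ 𝔪`; in the first case `h2` and injectivity give
`n = a • n'` for every `n`, in the second case `h1` does; so `𝔪 • ⊤ = ⊤`, contradiction. -/
theorem exists_unit [IsDomain V] [ValuationRing V] [IsFractionRing V K] {β : N →ₛₗ[j] W}
    (hβ : IsLattice V K β)
    (hne : (IsLocalRing.maximalIdeal V) • (⊤ : Submodule V N) ≠ ⊤) {w : K} (hw : w ≠ 0)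
    (h1 : ∀ n, ∃ n', β n' = w • β n) (h2 : ∀ n, ∃ n', w • β n' = β n) :
    ∃ u : Vˣ, algebraMap V K u = w := by
  rcases ValuationRing.isInteger_or_isInteger V w with ⟨a, ha⟩ | ⟨a, ha⟩
  · by_cases hu : IsUnit a
    · exact ⟨hu.unit, ha⟩
    · exfalso
      apply hne
      rw [eq_top_iff]
      intro n _
      obtain ⟨n', hn'⟩ := h2 n
      have : n = a • n' := by
        apply hβ.inj
        rw [hβ.smul, ha, hn']
      rw [this]
      exact Submodule.smul_mem_smul ((IsLocalRing.mem_maximalIdeal a).mpr hu) Submodule.mem_top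
  · by_cases hu : IsUnit a
    · refine ⟨hu.unit⁻¹, ?_⟩
      have h3 : algebraMap V K ((hu.unit⁻¹ : Vˣ) : V) * algebraMap V K a = 1 := by
        rw [← map_mul]
        have : ((hu.unit⁻¹ : Vˣ) : V) * a = 1 := by
          have := hu.unit.inv_mul
          simp
        rw [this, map_one]
      rw [ha] at h3
      field_simp at h3
      exact h3
    · exfalso
      apply hne
      rw [eq_top_iff]
      intro n _
      obtain ⟨n', hn'⟩ := h1 n
      have : n = a • n' := by
        apply hβ.inj
        rw [hβ.smul, ha, hn', smul_smul, inv_mul_cancel₀ hw, one_smul]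
      rw [this]
      exact Submodule.smul_mem_smul ((IsLocalRing.mem_maximalIdeal a).mpr hu) Submodule.mem_top

end Fermat.Agent.S25.ValUnique
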