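/-
S25 / AlgSpec.val_unique, node VU4.   Architect: helper183.

PRIMITIVE MAPS.  Two lattices `N`, `N'` in the same `W`, `N` finite over `R`, `N'` projective over
`V`: some multiple `c • N` lies in `N'` and not in `𝔪_V N'`.

Proof.  Let `e : Fin r → N` generate `N` over `R` (`Module.Finite.exists_fin`).  By `hβ'.den` choose
`a i ≠ 0`, `x₀ i` with `β' (x₀ i) = a i • β (e i)`; with `a := ∏ a i` and
`x i := (∏_{l ≠ i} a l) • x₀ i` we get `β' (x i) = a • β (e i)`  (or: induction on the finite family
to get a common denominator).  Not all `x i` are zero: otherwise `β (e i) = 0` for all `i`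
(`a ≠ 0` in the field `K`, as `algebraMap V K` is injective), so `e i = 0`, so `N = 0`.
`exists_content` gives `b ≠ 0`, `y` with `x i = b • y i`, some `y i₀ ∉ 𝔪 N'`.  Put `c := a / b`.
Then `β' (y i) = c • β (e i)`; `exists_map_of_span` gives `φ`; `φ (e i₀) = y i₀` by injectivity.
-/
import Fermat.Agent.S25.Alg.ValUnique.Content
import Fermat.Agent.S25.Alg.ValUnique.Lattice

set_option autoImplicit false

namespace Fermat.Agent.S25.ValUnique

variable {V K : Type*} [CommRing V] [IsDomain V] [ValuationRing V] [Field K] [Algebra V K]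
  [IsFractionRing V K]
  {R RK : Type*} [CommRing R] [CommRing RK] {j : R →+* RK}
  {N N' W : Type*} [AddCommGroup N] [Module R N] [Module V N]
  [AddCommGroup N'] [Module R N'] [Module V N']
  [AddCommGroup W] [Module RK W] [Module K W] [SMulCommClass K RK W]

theorem exists_primitive [Module.Finite R N] [Nontrivial N] [Module.Projective V N']
    {β : N →ₛₗ[j] W} {β' : N' →ₛₗ[j] W} (hβ : IsLattice V K β) (hβ' : IsLattice V K β') :
    ∃ (c : K) (φ : N →ₗ[R] N'), c ≠ 0 ∧ (∀ n, β' (φ n) = c • β n) ∧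
      ∃ n, φ n ∉ (IsLocalRing.maximalIdeal V) • (⊤ : Submodule V N') := by
  classical
  obtain ⟨r, e, he⟩ := Module.Finite.exists_fin (R := R) (M := N)
  have hinjVK : Function.Injective (algebraMap V K) := IsFractionRing.injective V K
  -- denominators
  choose a ha x₀ hx₀ using fun i => hβ'.den (β (e i))
  set A : V := ∏ i, a i with hA
  have hA0 : A ≠ 0 := Finset.prod_ne_zero_iff.mpr fun i _ => ha i
  have hAK : algebraMap V K A ≠ 0 := fun h => hA0 (hinjVK (by rw [h, map_zero]))
  let x : Fin r → N' := fun i => (∏ l ∈ Finset.univ.erase i, a l) • x₀ i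
  have hx : ∀ i, β' (x i) = algebraMap V K A • β (e i) := by
    intro i
    change β' ((∏ l ∈ Finset.univ.erase i, a l) • x₀ i) = _
    rw [hβ'.smul, hx₀, smul_smul, ← map_mul, hA,
      ← Finset.mul_prod_erase Finset.univ a (Finset.mem_univ i), mul_comm]
  have hne : ∃ i, x i ≠ 0 := by
    by_contra hcon
    replace hcon : ∀ i, x i = 0 := fun i => by
      by_contra h
      exact hcon ⟨i, h⟩
    have he0 : ∀ i, e i = 0 := by
      intro i
      apply hβ.inj
      have h1 := hx i
      rw [hcon i, map_zero] at h1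
      rw [map_zero]
      exact ((smul_eq_zero.mp h1.symm).resolve_left hAK)
    have htop : (⊤ : Submodule R N) = ⊥ := by
      rw [← he, Submodule.span_eq_bot]
      rintro _ ⟨i, rfl⟩
      exact he0 i
    obtain ⟨n, hn⟩ := exists_ne (0 : N)
    exact hn ((Submodule.mem_bot R).mp (htop ▸ Submodule.mem_top))
  obtain ⟨b, y, hb, hxy, i₀, hi₀⟩ := exists_content (V := V) x hne
  have hbK : algebraMap V K b ≠ 0 := fun h => hb (hinjVK (by rw [h, map_zero]))
  have hy : ∀ i, β' (y i) = (algebraMap V K A / algebraMap V K b) • β (e i) := by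
    intro i
    have h1 := hx i
    rw [hxy i, hβ'.smul] at h1
    rw [div_eq_inv_mul, ← smul_smul, ← h1, smul_smul, inv_mul_cancel₀ hbK, one_smul]
  obtain ⟨φ, hφ⟩ := exists_map_of_span (β := β) hβ'.inj
    (c := algebraMap V K A / algebraMap V K b) he
    (by rintro _ ⟨i, rfl⟩; exact ⟨y i, hy i⟩)
  refine ⟨_, φ, div_ne_zero hAK hbK, hφ, e i₀, ?_⟩
  have : φ (e i₀) = y i₀ := hβ'.inj (by rw [hφ, hy])
  rw [this]
  exact hi₀

end Fermat.Agent.S25.ValUnique
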