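/-
S25 / AlgSpec.val_unique, node VU5.   Architect: helper183.

CHART THEOREM.  Two invertible `R`-modules which are lattices in the same `W` differ by a scalar
`c ∈ Kˣ`, provided `𝔪_V R` is a prime ideal of `R`.

Proof.  `exists_primitive` twice: `φ : N → N'`, `β' ∘ φ = c • β`, and `ψ : N' → N`,
`β ∘ ψ = c' • β'`, both not `≡ 0` modulo `𝔪`.  By `mem_map_smul_top_iff` and `comp_notMem`
(with `I := 𝔪.map (algebraMap V R)`), `ψ ∘ φ` is not `≡ 0` mod `𝔪`, and `β (ψ (φ n)) = (c' * c) • β n`.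
Put `w := c' * c`.  `ValuationRing.isInteger_or_isInteger V w`:
* `w = algebraMap a`: then `ψ (φ n) = a • n` (injectivity), so `a ∉ 𝔪`, so `a` is a unit;
* `w⁻¹ = algebraMap a`: then `a • ψ (φ n) = n`; if `a ∈ 𝔪` then `N = 𝔪 N`, contradicting
  `smul_top_ne_top` (`I ≠ ⊤` as `I` is prime); so `a` is a unit.
In both cases `w = algebraMap u`, `u : Vˣ`.  Then `ψ' := u⁻¹ • ψ` satisfies `β (ψ' n') = c⁻¹ • β' n'`
and `exists_equiv_of_maps` concludes.
-/
import Fermat.Agent.S25.Alg.ValUnique.RankOne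
import Fermat.Agent.S25.Alg.ValUnique.Prim

set_option autoImplicit false

namespace Fermat.Agent.S25.ValUnique

variable {V K : Type*} [CommRing V] [IsDomain V] [ValuationRing V] [Field K] [Algebra V K]
  [IsFractionRing V K]
  {R RK : Type*} [CommRing R] [Algebra V R] [CommRing RK] {j : R →+* RK}
  {N N' W : Type*} [AddCommGroup N] [Module R N] [Module V N] [IsScalarTower V R N]
  [AddCommGroup N'] [Module R N'] [Module V N'] [IsScalarTower V R N']
  [AddCommGroup W] [Module RK W] [Module K W] [SMulCommClass K RK W]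

theorem exists_equiv [Module.Invertible R N] [Module.Invertible R N']
    [Module.Projective V N] [Module.Projective V N']
    (hp : ((IsLocalRing.maximalIdeal V).map (algebraMap V R)).IsPrime)
    {β : N →ₛₗ[j] W} {β' : N' →ₛₗ[j] W} (hβ : IsLattice V K β) (hβ' : IsLattice V K β') :
    ∃ (c : K) (e : N ≃ₗ[R] N'), c ≠ 0 ∧ ∀ n, β' (e n) = c • β n := by
  classical
  set 𝔪 := IsLocalRing.maximalIdeal V with h𝔪
  set I := 𝔪.map (algebraMap V R) with hI
  have hNtop : I • (⊤ : Submodule R N) ≠ ⊤ := smul_top_ne_top I hp.ne_top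
  have hN'top : I • (⊤ : Submodule R N') ≠ ⊤ := smul_top_ne_top I hp.ne_top
  have hnt : Nontrivial N := by
    by_contra h
    rw [not_nontrivial_iff_subsingleton] at h
    exact hNtop (Subsingleton.elim _ _)
  have hnt' : Nontrivial N' := by
    by_contra h
    rw [not_nontrivial_iff_subsingleton] at h
    exact hN'top (Subsingleton.elim _ _)
  obtain ⟨c, φ, hc, hφ, n₀, hn₀⟩ := exists_primitive hβ hβ'
  obtain ⟨c', ψ, hc', hψ, n₀', hn₀'⟩ := exists_primitive hβ' hβ
  have h1 : ∃ n, φ n ∉ I • (⊤ : Submodule R N') :=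
    ⟨n₀, fun h => hn₀ ((mem_map_smul_top_iff 𝔪 _).mp h)⟩
  have h2 : ∃ n, ψ n ∉ I • (⊤ : Submodule R N) :=
    ⟨n₀', fun h => hn₀' ((mem_map_smul_top_iff 𝔪 _).mp h)⟩
  obtain ⟨n₁, hn₁⟩ := comp_notMem I φ ψ h1 h2
  have hcomp : ∀ n, β (ψ (φ n)) = (c' * c) • β n := fun n => by
    rw [hψ, hφ, smul_smul]
  have hw : c' * c ≠ 0 := mul_ne_zero hc' hc
  -- the product is a unit of `V`
  have hunit : ∃ u : Vˣ, algebraMap V K u = c' * c := by
    rcases ValuationRing.isInteger_or_isInteger V (c' * c) with ⟨a, ha⟩ | ⟨a, ha⟩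
    · have hu : IsUnit a := by
        by_contra hu
        apply hn₁
        rw [mem_map_smul_top_iff]
        have : ψ (φ n₁) = a • n₁ := hβ.inj (by rw [hcomp, hβ.smul, ha])
        rw [this]
        exact Submodule.smul_mem_smul ((IsLocalRing.mem_maximalIdeal a).mpr hu) Submodule.mem_top
      exact ⟨hu.unit, ha⟩
    · have hu : IsUnit a := by
        by_contra hu
        apply hNtop
        rw [eq_top_iff]
        intro n _
        rw [mem_map_smul_top_iff]
        have : n = a • ψ (φ n) :=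
          hβ.inj (by rw [hβ.smul, hcomp, ha, smul_smul, inv_mul_cancel₀ hw, one_smul])
        rw [this]
        exact Submodule.smul_mem_smul ((IsLocalRing.mem_maximalIdeal a).mpr hu) Submodule.mem_top
      refine ⟨hu.unit⁻¹, ?_⟩
      have h3 : algebraMap V K ((hu.unit⁻¹ : Vˣ) : V) * algebraMap V K a = 1 := by
        rw [← map_mul]
        have : ((hu.unit⁻¹ : Vˣ) : V) * a = 1 := hu.unit.inv_mul
        rw [this, map_one]
      rw [ha] at h3
      exact eq_of_mul_inv_eq_one h3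
  obtain ⟨u, hu⟩ := hunit
  have huK : algebraMap V K ((u⁻¹ : Vˣ) : V) * (c' * c) = 1 := by
    rw [← hu, ← map_mul, Units.inv_mul, map_one]
  let ψ' : N' →ₗ[R] N := algebraMap V R ((u⁻¹ : Vˣ) : V) • ψ
  have hψ' : ∀ n, β (ψ' n) = c⁻¹ • β' n := by
    intro n
    have e1 : ψ' n = ((u⁻¹ : Vˣ) : V) • ψ n := by
      change algebraMap V R ((u⁻¹ : Vˣ) : V) • ψ n = _
      rw [algebraMap_smul]
    rw [e1, hβ.smul, hψ, smul_smul]
    congr 1
    exact eq_inv_of_mul_eq_one_left (by rw [mul_assoc]; exact huK)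
  obtain ⟨e, he⟩ := exists_equiv_of_maps hβ.inj hβ'.inj hc φ hφ ψ' hψ'
  exact ⟨c, e, hc, he⟩

end Fermat.Agent.S25.ValUnique
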