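/-
S25 / AlgSpec.val_unique, node VU6.   Architect: helper183.

COMPARISON OF THE SCALARS ON TWO CHARTS.  `(X, X', Y, b, b', ε, c₁)` is the data on the small chart
(only its underlying sets matter), `(N, N', W, β, β', e, c)` the data on the overlap, and
`ρ, ρ', ρK` the restriction maps.  Then `c₁ / c ∈ Vˣ`.

Proof.  Put `w := c₁ / c`.  For all `x`:
`β' (ρ' (ε x)) = ρK (b' (ε x)) = ρK (c₁ • b x) = c₁ • β (ρ x) = w • (c • β (ρ x)) = w • β' (e (ρ x))`.
`S  := {n' | ∃ n'', β' n'' = w • β' n'}` is an `R`-submodule of `N'` (`smul_comm`) containing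
`e (ρ x)`; these span `N'` (image of `hs` under `e`), so `S = ⊤`.
`S' := {n' | ∃ n'', w • β' n'' = β' n'}` is an `R`-submodule containing `ρ' (ε x)`, i.e. (`ε` onto)
all `ρ' x'`; so `S' = ⊤` by `hs'`.  Apply `exists_unit` to `β'`.
-/
import Fermat.Agent.S25.Alg.ValUnique.Lattice

set_option autoImplicit false

namespace Fermat.Agent.S25.ValUnique

variable {V K : Type*} [CommRing V] [IsDomain V] [ValuationRing V] [Field K] [Algebra V K]
  [IsFractionRing V K]
  {R RK : Type*} [CommRing R] [CommRing RK] {j : R →+* RK}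
  {N N' W : Type*} [AddCommGroup N] [Module R N] [Module V N]
  [AddCommGroup N'] [Module R N'] [Module V N']
  [AddCommGroup W] [Module RK W] [Module K W] [SMulCommClass K RK W]

theorem compare {X X' Y : Type*} [AddCommGroup Y] [Module K Y]
    (b : X → Y) (b' : X' → Y) (ε : X → X') (hε : Function.Surjective ε) {c₁ : K} (hc₁ : c₁ ≠ 0)
    (hε' : ∀ x, b' (ε x) = c₁ • b x)
    (ρ : X → N) (ρ' : X' → N') (ρK : Y → W) (hρK : ∀ (c : K) (y : Y), ρK (c • y) = c • ρK y)
    {β : N →ₛₗ[j] W} {β' : N' →ₛₗ[j] W}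
    (h1 : ∀ x, β (ρ x) = ρK (b x)) (h2 : ∀ x, β' (ρ' x) = ρK (b' x))
    (hs : Submodule.span R (Set.range ρ) = ⊤) (hs' : Submodule.span R (Set.range ρ') = ⊤)
    (hβ' : IsLattice V K β')
    (hne : (IsLocalRing.maximalIdeal V) • (⊤ : Submodule V N') ≠ ⊤)
    {c : K} (hc : c ≠ 0) (e : N ≃ₗ[R] N') (he : ∀ n, β' (e n) = c • β n) :
    ∃ u : Vˣ, c₁ = algebraMap V K u * c := by
  have hw : c₁ / c ≠ 0 := div_ne_zero hc₁ hc
  have key : ∀ x, β' (ρ' (ε x)) = (c₁ / c) • β' (e (ρ x)) := by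
    intro x
    rw [h2, hε', hρK, ← h1, he, smul_smul, div_mul_cancel₀ _ hc]
  let S : Submodule R N' :=
    { carrier := {n' | ∃ n'', β' n'' = (c₁ / c) • β' n'}
      add_mem' := by
        rintro a b ⟨a', ha⟩ ⟨b', hb⟩
        exact ⟨a' + b', by rw [map_add, map_add, smul_add, ha, hb]⟩
      zero_mem' := ⟨0, by simp⟩
      smul_mem' := by
        rintro r a ⟨a', ha⟩
        refine ⟨r • a', ?_⟩
        rw [LinearMap.map_smulₛₗ, LinearMap.map_smulₛₗ, ha, smul_comm (c₁ / c)] }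
  let S' : Submodule R N' :=
    { carrier := {n' | ∃ n'', (c₁ / c) • β' n'' = β' n'}
      add_mem' := by
        rintro a b ⟨a', ha⟩ ⟨b', hb⟩
        exact ⟨a' + b', by rw [map_add, map_add, smul_add, ha, hb]⟩
      zero_mem' := ⟨0, by simp⟩
      smul_mem' := by
        rintro r a ⟨a', ha⟩
        refine ⟨r • a', ?_⟩
        rw [LinearMap.map_smulₛₗ, LinearMap.map_smulₛₗ, ← ha, smul_comm (c₁ / c)] }
  have hS : S = ⊤ := by
    have h3 : Submodule.span R (Set.range fun x => e (ρ x)) = ⊤ := by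
      have h4 : (Set.range fun x => e (ρ x)) = (e : N →ₗ[R] N') '' Set.range ρ := by
        ext y
        simp
      rw [h4, Submodule.span_image, hs, Submodule.map_top, LinearEquiv.range]
    rw [eq_top_iff, ← h3, Submodule.span_le]
    rintro _ ⟨x, rfl⟩
    exact ⟨ρ' (ε x), key x⟩
  have hS' : S' = ⊤ := by
    rw [eq_top_iff, ← hs', Submodule.span_le]
    rintro _ ⟨x', rfl⟩
    obtain ⟨x, rfl⟩ := hε x'
    exact ⟨e (ρ x), (key x).symm⟩
  have g1 : ∀ n, ∃ n', β' n' = (c₁ / c) • β' n := fun n => by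
    have : n ∈ S := hS ▸ Submodule.mem_top
    exact this
  have g2 : ∀ n, ∃ n', (c₁ / c) • β' n' = β' n := fun n => by
    have : n ∈ S' := hS' ▸ Submodule.mem_top
    exact this
  obtain ⟨u, hu⟩ := exists_unit hβ' hne hw g1 g2
  exact ⟨u, by rw [hu, div_mul_cancel₀ _ hc]⟩

end Fermat.Agent.S25.ValUnique
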