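/-
S25 / AlgSpec.val_unique, node VU7.   Architect + owner: helper183.

A base change `V → K = Frac V` of a projective `V`-module is a lattice.
-/
import Fermat.Agent.S25.Triple.BCModMathlib
import Fermat.Agent.S25.Alg.ValUnique.Lattice

set_option autoImplicit false

universe u

namespace Fermat.Agent.S25.ValUnique

theorem smul_eq_zero_of_projective {V N : Type*} [CommRing V] [IsDomain V] [AddCommGroup N]
    [Module V N] [Module.Projective V N] {s : V} (hs : s ≠ 0) {n : N} (h : s • n = 0) : n = 0 := by
  obtain ⟨σ, hσ⟩ := (Module.projective_def' (R := V) (P := N)).mp inferInstance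
  have h1 : σ n = 0 := by
    have h2 : s • σ n = 0 := by rw [← map_smul, h, map_zero]
    exact (smul_eq_zero.mp h2).resolve_left hs
  have := congrArg (fun f : N →ₗ[V] N => f n) hσ
  simp only [LinearMap.comp_apply, h1, map_zero, LinearMap.id_apply] at this
  exact this.symm

theorem isLattice_of_isBCMap {V K : Type u} [CommRing V] [IsDomain V] [Field K] [Algebra V K]
    [IsFractionRing V K] {R RK : Type u} [CommRing R] [CommRing RK] {j : R →+* RK}
    {N W : Type u} [AddCommGroup N] [Module R N] [Module V N] [Module.Projective V N]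
    [AddCommGroup W] [Module RK W] [Module K W]
    (β : N →ₛₗ[j] W) (f : V →+* K) (hf : ∀ a, f a = algebraMap V K a)
    (βA : N →ₛₗ[f] W) (hβA : IsBCMap f βA) (h : ∀ n, βA n = β n) : IsLattice V K β := by
  obtain rfl : f = algebraMap V K := RingHom.ext hf
  let _ : Module V W := Module.compHom W (algebraMap V K)
  have : IsScalarTower V K W := ⟨fun r s q => by
    change (r • s) • q = (algebraMap V K r) • (s • q)
    rw [Algebra.smul_def, mul_smul]⟩
  let β₀ : N →ₗ[V] W :=
    { toFun := βA
      map_add' := βA.map_add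
      map_smul' := fun r m => βA.map_smulₛₗ r m }
  have hb : IsBaseChange K β₀ := hβA.isBaseChange β₀ (fun _ => rfl)
  have hl : IsLocalizedModule (nonZeroDivisors V) β₀ :=
    (isLocalizedModule_iff_isBaseChange (nonZeroDivisors V) K β₀).2 hb
  refine ⟨?_, ?_, ?_⟩
  · rw [injective_iff_map_eq_zero]
    intro n hn
    have h0 : β₀ n = 0 := (h n).trans hn
    obtain ⟨s, hs⟩ := (IsLocalizedModule.eq_zero_iff (nonZeroDivisors V) β₀).1 h0
    exact smul_eq_zero_of_projective (nonZeroDivisors.coe_ne_zero s) hs
  · intro w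
    obtain ⟨⟨n, s⟩, hs⟩ := IsLocalizedModule.surj (nonZeroDivisors V) β₀ w
    refine ⟨s, nonZeroDivisors.coe_ne_zero s, n, ?_⟩
    rw [← h]
    exact hs.symm
  · intro a n
    rw [← h, ← h]
    exact βA.map_smulₛₗ a n

end Fermat.Agent.S25.ValUnique
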