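/-
S25 / AlgSpec.val_unique, node VU2 (pure Mathlib).   Architect: helper183.

Maps between invertible modules modulo a prime ideal: the composite of two maps which are nonzero
modulo `I` is nonzero modulo `I`.
-/
import Mathlib

set_option autoImplicit false

namespace Fermat.Agent.S25.ValUnique

variable {R : Type*} [CommRing R]

/-- dual basis: `Module.projective_def'` gives `s : P →ₗ (P →₀ R)` with `lc ∘ s = id`; if all
coordinates `s x p` are in `I` then `x = ∑ s x p • p ∈ I • ⊤`. -/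
theorem exists_dual_notMem (I : Ideal R) {P : Type*} [AddCommGroup P] [Module R P]
    [Module.Projective R P] {x : P} (hx : x ∉ I • (⊤ : Submodule R P)) :
    ∃ l : P →ₗ[R] R, l x ∉ I := by
  classical
  obtain ⟨s, hs⟩ := (Module.projective_def' (R := R) (P := P)).mp inferInstance
  by_contra hcon
  push Not at hcon
  apply hx
  have h1 : Finsupp.linearCombination R id (s x) = x := LinearMap.congr_fun hs x
  rw [← h1, Finsupp.linearCombination_apply]
  refine Submodule.sum_mem _ fun p _ => ?_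
  exact Submodule.smul_mem_smul (hcon ((Finsupp.lapply p).comp s)) Submodule.mem_top

/-- a linear form maps `I • ⊤` into `I` (`Submodule.smul_induction_on`). -/
theorem dual_mem_of_mem (I : Ideal R) {P : Type*} [AddCommGroup P] [Module R P]
    (l : P →ₗ[R] R) {x : P} (hx : x ∈ I • (⊤ : Submodule R P)) : l x ∈ I := by
  induction hx using Submodule.smul_induction_on' with
  | smul r hr m _ => rw [map_smul, smul_eq_mul]; exact I.mul_mem_right _ hr
  | add a _ b _ ha hb => rw [map_add]; exact I.add_mem ha hb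

/-- rank one: apply `TensorProduct.lid ∘ (l ⊗ id)` to `a ⊗ₜ b = b ⊗ₜ a`
(`Module.Invertible.tmul_comm`-type lemma of Mathlib). -/
theorem dual_swap {N : Type*} [AddCommGroup N] [Module R N] [Module.Invertible R N]
    (l : N →ₗ[R] R) (a b : N) : l a • b = l b • a := by
  have h := congrArg ((TensorProduct.lid R N).toLinearMap ∘ₗ LinearMap.rTensor N l)
    (Module.Invertible.tmul_comm (R := R) (m₁ := a) (m₂ := b))
  simpa using h

/-- Take `n₀` with `φ n₀ ∉ I N'`, `n'₀` with `ψ n'₀ ∉ I N''`, `l` with `l (φ n₀) ∉ I`, `μ` with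
`μ (ψ n'₀) ∉ I`.  `l (φ n₀) • n'₀ = l n'₀ • φ n₀`; apply `μ ∘ ψ`:
`l (φ n₀) * μ (ψ n'₀) = l n'₀ * μ (ψ (φ n₀))`.  If `ψ (φ n₀) ∈ I N''` the right side is in `I`,
contradicting primality. -/
theorem comp_notMem (I : Ideal R) [I.IsPrime] {N N' N'' : Type*}
    [AddCommGroup N] [Module R N] [AddCommGroup N'] [Module R N'] [AddCommGroup N''] [Module R N'']
    [Module.Invertible R N'] [Module.Projective R N'']
    (φ : N →ₗ[R] N') (ψ : N' →ₗ[R] N'')
    (hφ : ∃ n, φ n ∉ I • (⊤ : Submodule R N')) (hψ : ∃ n, ψ n ∉ I • (⊤ : Submodule R N'')) :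
    ∃ n, ψ (φ n) ∉ I • (⊤ : Submodule R N'') := by
  obtain ⟨n₀, hn₀⟩ := hφ
  obtain ⟨n'₀, hn'₀⟩ := hψ
  obtain ⟨l, hl⟩ := exists_dual_notMem I hn₀
  obtain ⟨μ, hμ⟩ := exists_dual_notMem I hn'₀
  refine ⟨n₀, fun hmem => ?_⟩
  have h1 := dual_swap l (φ n₀) n'₀
  have h2 := congrArg (fun t => μ (ψ t)) h1
  simp only [map_smul, smul_eq_mul] at h2
  have h3 : l (φ n₀) * μ (ψ n'₀) ∈ I := by
    rw [h2]
    exact I.mul_mem_left _ (dual_mem_of_mem I μ hmem)
  rcases (Ideal.IsPrime.mem_or_mem inferInstance h3) with h | h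
  · exact hl h
  · exact hμ h

/-- Nakayama (`Submodule.exists_sub_one_mem_and_smul_eq_zero_of_fg_of_le_smul`): `I N = N` gives
`r ≡ 1 mod I` killing `N`; an invertible module is faithful, so `r = 0` and `1 ∈ I`. -/
theorem smul_top_ne_top (I : Ideal R) (hI : I ≠ ⊤) {N : Type*} [AddCommGroup N] [Module R N]
    [Module.Invertible R N] : I • (⊤ : Submodule R N) ≠ ⊤ := by
  intro htop
  obtain ⟨r, hr, hr0⟩ := Submodule.exists_sub_one_mem_and_smul_eq_zero_of_fg_of_le_smul I
    (⊤ : Submodule R N) (Module.Finite.fg_top) (by rw [htop])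
  have hr' : r = 0 := by
    apply FaithfulSMul.eq_of_smul_eq_smul (α := N)
    intro n
    rw [hr0 n Submodule.mem_top, zero_smul]
  rw [hr', zero_sub] at hr
  exact hI ((Ideal.eq_top_iff_one I).mpr (by simpa using I.neg_mem hr))

/-- comparison of `𝔞 N` computed over `V` and over the `V`-algebra `R`
(`Ideal.smul_restrictScalars`-type lemma). -/
theorem mem_map_smul_top_iff {V : Type*} [CommRing V] [Algebra V R] (𝔞 : Ideal V)
    {N : Type*} [AddCommGroup N] [Module R N] [Module V N] [IsScalarTower V R N] (n : N) :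
    n ∈ (𝔞.map (algebraMap V R)) • (⊤ : Submodule R N) ↔ n ∈ 𝔞 • (⊤ : Submodule V N) := by
  have h := Ideal.smul_restrictScalars 𝔞 (⊤ : Submodule R N)
  rw [Submodule.restrictScalars_top] at h
  rw [← h, Submodule.restrictScalars_mem]

end Fermat.Agent.S25.ValUnique
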