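/-
S25 / AlgSpec.val_unique, node VU8.   Architect + owner: helper183.

Concrete inputs on the coordinate rings `Rᵢ A = A ⊗[k] Bᵢ`.
-/
import Fermat.Agent.S25.Triple.QC
import Fermat.Agent.S25.Triple.BCModLemmas
import Fermat.Agent.S25.Alg.Dedekind
import Fermat.Agent.S25.Alg.Lift.RingsKer
import Fermat.Agent.S25.Alg.Lift.Data
import Fermat.Agent.S25.TripleFinite
set_option autoImplicit false
universe u
open scoped TensorProduct
namespace Fermat.Agent.S25.ValUnique
variable {k : Type u} [Field k] {𝔠 : CurveCharts k}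
section General
variable {A : Type u} [CommRing A] [Algebra k A]

theorem projective₁ (T : Triple 𝔠 A) (hT : T.IsInvertible) : Module.Projective A T.N₁ := by
  have := hT.inv₁
  exact TripleFinite.projective_trans A (𝔠.R₁ A) T.N₁

theorem projective₂ (T : Triple 𝔠 A) (hT : T.IsInvertible) : Module.Projective A T.N₂ := by
  have := hT.inv₂
  exact TripleFinite.projective_trans A (𝔠.R₂ A) T.N₂

theorem projective₁₂ (T : Triple 𝔠 A) (hT : T.IsInvertible) : Module.Projective A T.N₁₂ := by
  have := Lift.invertible_N₁₂ T hT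
  exact TripleFinite.projective_trans A (𝔠.R₁₂ A) T.N₁₂

theorem span_range_ρ₁ (T : Triple 𝔠 A) (hT : T.IsQC) :
    Submodule.span (𝔠.R₁₂ A) (Set.range T.ρ₁) = ⊤ :=
  ((Triple.isQC_iff T).1 hT).1.span_range

theorem span_range_ρ₂ (T : Triple 𝔠 A) (hT : T.IsQC) :
    Submodule.span (𝔠.R₁₂ A) (Set.range T.ρ₂) = ⊤ :=
  ((Triple.isQC_iff T).1 hT).2.span_range

end General

section Local

variable [IsAlgClosed k] (𝔠) (V : Type u) [CommRing V] [IsLocalRing V] [Algebra k V]

omit [IsAlgClosed k] in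
theorem ker_toResidue :
    RingHom.ker (IsScalarTower.toAlgHom k V (IsLocalRing.ResidueField V)).toRingHom =
      IsLocalRing.maximalIdeal V := by
  ext a
  simp [RingHom.mem_ker]

omit [IsAlgClosed k] in
theorem toResidue_surjective :
    Function.Surjective (IsScalarTower.toAlgHom k V (IsLocalRing.ResidueField V)) :=
  IsLocalRing.residue_surjective

theorem isPrime₁ :
    ((IsLocalRing.maximalIdeal V).map (algebraMap V (𝔠.R₁ V))).IsPrime := by
  have := 𝔠.isDomain_R₁ (IsLocalRing.ResidueField V)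
  rw [← ker_toResidue (k := k) V, ← Lift.ker_bc₁ 𝔠 _ (toResidue_surjective V)]
  exact RingHom.ker_isPrime _

theorem isPrime₂ :
    ((IsLocalRing.maximalIdeal V).map (algebraMap V (𝔠.R₂ V))).IsPrime := by
  have := 𝔠.isDomain_R₂ (IsLocalRing.ResidueField V)
  rw [← ker_toResidue (k := k) V, ← Lift.ker_bc₂ 𝔠 _ (toResidue_surjective V)]
  exact RingHom.ker_isPrime _

theorem isPrime₁₂ :
    ((IsLocalRing.maximalIdeal V).map (algebraMap V (𝔠.R₁₂ V))).IsPrime := by
  have := 𝔠.isDomain_R₁₂ (IsLocalRing.ResidueField V)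
  rw [← ker_toResidue (k := k) V, ← Lift.ker_bc₁₂ 𝔠 _ (toResidue_surjective V)]
  exact RingHom.ker_isPrime _

end Local

end Fermat.Agent.S25.ValUnique
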